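import Fermat.Agent.S52.RED.Main
import Fermat.Agent.S52.NOS.Short

/-!
# S52 / (U) glue, (G1) [TWIST-PTS]: scaling points of short Weierstrass curves (prefix `s52g_`)

For `ρ ≠ 0` the map `(x, y) ↦ (ρ² x, ρ³ y)` is an injective, surjective group homomorphism
from `y² = x³ + A x + B` to `y² = x³ + ρ⁴ A x + ρ⁶ B` (no hypothesis on the discriminant);
in particular it preserves `n`-torsion (`s52g_twist_pts`).  Used twice in the (U) glue:
`ρ = η·h` (quadratic twist by `d = ρ²`) and `ρ = D(s)` (clearing denominators).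
-/

set_option autoImplicit false

namespace Fermat.Agent.S52

open WeierstrassCurve WeierstrassCurve.Affine Fermat.Agent.LR

section TwistPts

variable {Ω : Type*} [Field Ω]

/-- the change of variables `(x, y) ↦ (ρ² x, ρ³ y)` -/
def s52g_vc (ρ : Ω) (hρ : ρ ≠ 0) : VariableChange Ω := ⟨(Units.mk0 ρ hρ)⁻¹, 0, 0, 0⟩

theorem s52g_vc_smul (A B ρ : Ω) (hρ : ρ ≠ 0) :
    s52g_vc ρ hρ • (s52n_short A B).toAffine = (s52n_short (ρ ^ 4 * A) (ρ ^ 6 * B)).toAffine := by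
  simp only [s52g_vc, s52n_short]
  ext <;> simp [WeierstrassCurve.variableChange_def]

theorem s52g_vc_X (ρ : Ω) (hρ : ρ ≠ 0) (x : Ω) : lrvc_X (s52g_vc ρ hρ) x = ρ ^ 2 * x := by
  simp [lrvc_X, s52g_vc]

theorem s52g_vc_Y (ρ : Ω) (hρ : ρ ≠ 0) (x y : Ω) : lrvc_Y (s52g_vc ρ hρ) x y = ρ ^ 3 * y := by
  simp [lrvc_Y, s52g_vc]

/-- nonsingularity of the scaled point (no hypothesis on the discriminant) -/
theorem s52g_nonsingular_iff (A B ρ : Ω) (hρ : ρ ≠ 0) (x y : Ω) :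
    (s52n_short (ρ ^ 4 * A) (ρ ^ 6 * B)).toAffine.Nonsingular (ρ ^ 2 * x) (ρ ^ 3 * y) ↔
      (s52n_short A B).toAffine.Nonsingular x y := by
  have := s52d_nonsingular_iff (s52g_vc ρ hρ) (s52n_short A B).toAffine x y
  rw [s52g_vc_smul, s52g_vc_X, s52g_vc_Y] at this
  exact this

variable [DecidableEq Ω]

/-- the scaling homomorphism `(x, y) ↦ (ρ² x, ρ³ y)` on points -/
noncomputable def s52g_hom (A B ρ : Ω) (hρ : ρ ≠ 0) :
    (s52n_short A B).toAffine.Point →+ (s52n_short (ρ ^ 4 * A) (ρ ^ 6 * B)).toAffine.Point where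
  toFun := s52d_map (s52g_vc ρ hρ) (s52n_short A B).toAffine (s52g_vc_smul A B ρ hρ)
  map_zero' := rfl
  map_add' := s52d_map_add _ _ _

theorem s52g_hom_some (A B ρ : Ω) (hρ : ρ ≠ 0) {x y : Ω}
    (h : (s52n_short A B).toAffine.Nonsingular x y) :
    s52g_hom A B ρ hρ (Point.some x y h) =
      Point.some (ρ ^ 2 * x) (ρ ^ 3 * y) ((s52g_nonsingular_iff A B ρ hρ x y).2 h) := by
  change s52d_map (s52g_vc ρ hρ) (s52n_short A B).toAffine (s52g_vc_smul A B ρ hρ)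
    (Point.some x y h) = _
  rw [s52d_map_some]
  exact lrvc_some_congr _ _ (s52g_vc_X ρ hρ x) (s52g_vc_Y ρ hρ x y)

theorem s52g_hom_injective (A B ρ : Ω) (hρ : ρ ≠ 0) : Function.Injective (s52g_hom A B ρ hρ) :=
  s52d_map_injective (s52g_vc ρ hρ) (s52n_short A B).toAffine (s52g_vc_smul A B ρ hρ)

theorem s52g_hom_surjective (A B ρ : Ω) (hρ : ρ ≠ 0) :
    Function.Surjective (s52g_hom A B ρ hρ) :=
  s52d_map_surjective (s52g_vc ρ hρ) (s52n_short A B).toAffine (s52g_vc_smul A B ρ hρ)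

/-- **(G1) [TWIST-PTS]**: scaling by `ρ` preserves `n`-torsion points. -/
theorem s52g_twist_pts (A B ρ : Ω) (hρ : ρ ≠ 0) (x y : Ω)
    (h : (s52n_short A B).toAffine.Nonsingular x y) (n : ℕ)
    (hn : n • (Point.some x y h : (s52n_short A B).toAffine.Point) = 0) :
    ∃ h' : (s52n_short (ρ ^ 4 * A) (ρ ^ 6 * B)).toAffine.Nonsingular (ρ ^ 2 * x) (ρ ^ 3 * y),
      n • (Point.some (ρ ^ 2 * x) (ρ ^ 3 * y) h' :
        (s52n_short (ρ ^ 4 * A) (ρ ^ 6 * B)).toAffine.Point) = 0 := by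
  refine ⟨(s52g_nonsingular_iff A B ρ hρ x y).2 h, ?_⟩
  rw [← s52g_hom_some A B ρ hρ h, ← map_nsmul, hn, map_zero]

/-- the converse of `s52g_twist_pts` -/
theorem s52g_twist_pts_iff (A B ρ : Ω) (hρ : ρ ≠ 0) (x y : Ω)
    (h : (s52n_short A B).toAffine.Nonsingular x y) (n : ℕ) :
    n • (Point.some (ρ ^ 2 * x) (ρ ^ 3 * y) ((s52g_nonsingular_iff A B ρ hρ x y).2 h) :
        (s52n_short (ρ ^ 4 * A) (ρ ^ 6 * B)).toAffine.Point) = 0 ↔
      n • (Point.some x y h : (s52n_short A B).toAffine.Point) = 0 := by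
  rw [← s52g_hom_some A B ρ hρ h, ← map_nsmul]
  constructor
  · intro h0
    exact s52g_hom_injective A B ρ hρ (by rw [h0, map_zero])
  · intro h0
    rw [h0, map_zero]

/-- the `n`-torsion subgroups have the same cardinality -/
theorem s52g_card_torsion (A B ρ : Ω) (hρ : ρ ≠ 0) (n : ℕ) :
    Nat.card {P : (s52n_short (ρ ^ 4 * A) (ρ ^ 6 * B)).toAffine.Point // n • P = 0} =
      Nat.card {P : (s52n_short A B).toAffine.Point // n • P = 0} := by
  symm
  refine Nat.card_congr (Equiv.ofBijective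
    (fun P => ⟨s52g_hom A B ρ hρ P.1, by rw [← map_nsmul, P.2, map_zero]⟩) ⟨?_, ?_⟩)
  · intro P Q hPQ
    exact Subtype.ext (s52g_hom_injective A B ρ hρ (congrArg Subtype.val hPQ))
  · rintro ⟨Q, hQ⟩
    obtain ⟨P, rfl⟩ := s52g_hom_surjective A B ρ hρ Q
    refine ⟨⟨P, s52g_hom_injective A B ρ hρ (by rw [map_nsmul, hQ, map_zero])⟩, rfl⟩

end TwistPts

end Fermat.Agent.S52
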